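import Fermat.Agent.TwoPrimesPrimePower.Series
import Fermat.Agent.PrimePlusPrimePower.Circle

/-!
# The circle method for two primes and the `k`-th power of a prime

On a grid the coefficient of `f ^ 2 g` at `N`, `f` the sum over primes up to `N` and `g` the sum
over primes `x` with `x ^ k ≤ N`: off the arcs of logarithmic size `g` saves any power of the
logarithm and `f` is bounded in mean square, and on them both sums are near their models.
-/

set_option autoImplicit false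

noncomputable section

namespace FA.TwoPrimesPrimePower

open Finset FA.ThreePrimes ArithmeticFunction
open FA.HuaCubes (intTrig intTrig_mul)
open FA.PrimePlusPower (powerVars powerScale powerScale_spec model_shift exists_log_pow_le_scale)
open FA.PrimePlusPrimePower (log_rootFloor_spec twist_mul_powTwist)
open FA.WaringGoldbach (powTwist unitFactor)
open scoped Real

/-- The variables `(a, m, x)`, `a, m ≤ N`, `x ^ k ≤ N`. -/
def tripleVars (k N : ℕ) : Finset (ℕ × ℕ × ℕ) := Ioc 0 N ×ˢ powerVars k N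

/-- The representations of `N` as `a + m + x ^ k` with the weight `f a m x`. -/
def tripleReps (f : ℕ → ℕ → ℕ → ℝ) (k N : ℕ) : ℝ :=
  ∑ z ∈ (tripleVars k N).filter (fun z => z.1 + (z.2.1 + z.2.2 ^ k) = N), f z.1 z.2.1 z.2.2

/-- `Λ a Λ m Λ x`. -/
def primeTriple (a m x : ℕ) : ℝ := Λ a * (Λ m * Λ x)

/-- `J (N)`. -/
def pairWeight (k N : ℕ) : ℝ :=
  ∑ z ∈ (Ioc 0 N ×ˢ (Ioc 0 N ×ˢ Ioc 0 N)).filter (fun z => z.1 + (z.2.1 + z.2.2) = N),
    WaringAsymptotic.weight (1 / (k : ℝ)) z.2.2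

/-- The model on one arc. -/
def pairModel (k N : ℕ) (z : Σ _ : ℕ, ℕ) (t : ℝ) : ℂ :=
  pairCoeff k z * (geomSum N (t - centre z) *
    (geomSum N (t - centre z) * WaringAsymptotic.weightSum (1 / (k : ℝ)) N (t - centre z)))

/-- What is left of `f ^ 2 g`. -/
def pairRemainder (k N Q : ℕ) (t : ℝ) : ℂ :=
  twist t Λ N * (twist t Λ N * powTwist k t Λ (WaringAsymptotic.rootFloor k N)) -
    ∑ z ∈ arcCentres Q, pairModel k N z t

theorem twist_mul_twist_mul_powTwist (k N : ℕ) (t : ℝ) :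
    twist t Λ N * (twist t Λ N * powTwist k t Λ (WaringAsymptotic.rootFloor k N)) =
      intTrig (tripleVars k N) (fun z => (Λ z.1 : ℂ) * ((Λ z.2.1 : ℂ) * (Λ z.2.2 : ℂ)))
        (fun z => ((z.1 + (z.2.1 + z.2.2 ^ k) : ℕ) : ℤ)) t := by
  have e1 : twist t Λ N = intTrig (Ioc 0 N) (fun m => (Λ m : ℂ)) (fun m => (m : ℤ)) t := by
    simp [twist, intTrig]
  rw [twist_mul_powTwist, e1, intTrig_mul]
  rfl

theorem pairModel_shift (c : ℝ) (N : ℕ) (t θ : ℝ) :
    geomSum N (t - θ) * (geomSum N (t - θ) * WaringAsymptotic.weightSum c N (t - θ)) =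
      intTrig (Ioc 0 N ×ˢ (Ioc 0 N ×ˢ Ioc 0 N))
        (fun z => (WaringAsymptotic.weight c z.2.2 : ℂ) *
          eAdd (-(((z.1 + (z.2.1 + z.2.2) : ℕ) : ℝ) * θ)))
        (fun z => ((z.1 + (z.2.1 + z.2.2) : ℕ) : ℤ)) t := by
  have e1 : geomSum N (t - θ) =
      intTrig (Ioc 0 N) (fun m => eAdd (-((m : ℝ) * θ))) (fun m => (m : ℤ)) t := by
    refine sum_congr rfl fun m _ => ?_
    rw [← eAdd_add]
    push_cast
    ring_nf
  rw [model_shift, e1, intTrig_mul, intTrig, intTrig]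
  refine sum_congr rfl fun z _ => ?_
  rw [mul_left_comm (eAdd _), ← eAdd_add]
  push_cast
  ring_nf

/-- **The coefficient at `N`.** -/
theorem abs_pair_deviation_le {k N Q M : ℕ} (hk : 1 ≤ k) (hN : 1 ≤ N) (hM : M = 4 * N) :
    (M : ℝ) * |tripleReps primeTriple k N -
        pairWeight k N * (∑ q ∈ Icc 1 Q, pairTerm k N q).re| ≤
      ∑ h ∈ range M, ‖pairRemainder k N Q ((h : ℝ) / M)‖ := by
  have hM0 : 0 < M := by omega
  have e : ∑ h ∈ range M, pairRemainder k N Q ((h : ℝ) / M) * eAdd (-((N : ℝ) * h / M)) =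
      (M : ℂ) * ((tripleReps primeTriple k N : ℂ) -
        (pairWeight k N : ℂ) * ∑ q ∈ Icc 1 Q, pairTerm k N q) := by
    simp only [pairRemainder, pairModel, sub_mul, sum_sub_distrib, mul_sub, sum_mul]
    congr 1
    · simp only [twist_mul_twist_mul_powTwist]
      rw [FourCubes.sum_intTrig_coeff _ _ _ hM0 N fun i hi => ?_]
      · simp only [tripleReps, primeTriple, Complex.ofReal_sum, Complex.ofReal_mul, Nat.cast_inj]
      · simp only [tripleVars, powerVars, mem_product, mem_Ioc] at hi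
        have h1 := Nat.pow_le_pow_left hi.2.2.2 k
        have h2 := (WaringAsymptotic.rootFloor_spec hk hN).2.1
        rw [abs_lt]
        omega
    · rw [sum_comm, pairTerm_eq_arcs, mul_sum, mul_sum, ← arcCentres]
      refine sum_congr rfl fun z _ => ?_
      simp only [pairModel_shift, mul_assoc, ← mul_sum]
      rw [FourCubes.sum_intTrig_coeff _ _ _ hM0 N fun i hi => ?_]
      · rw [pairWeight, Complex.ofReal_sum,
          show (Ioc 0 N ×ˢ (Ioc 0 N ×ˢ Ioc 0 N)).filter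
              (fun m => ((m.1 + (m.2.1 + m.2.2) : ℕ) : ℤ) = N) =
            (Ioc 0 N ×ˢ (Ioc 0 N ×ˢ Ioc 0 N)).filter (fun m => m.1 + (m.2.1 + m.2.2) = N) from
            filter_congr fun m _ => Int.natCast_inj]
        rw [sum_congr rfl fun m hm => by rw [(mem_filter.1 hm).2], sum_mul, mul_sum, mul_sum,
          mul_sum]
        refine sum_congr rfl fun m _ => ?_
        ring
      · simp only [mem_product, mem_Ioc] at hi
        rw [abs_lt]
        omega
  refine le_trans ?_ ((norm_sum_le _ _).trans' (le_of_eq (congrArg (‖·‖) e.symm)) |>.trans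
    (le_of_eq (sum_congr rfl fun h _ => by rw [norm_mul, norm_eAdd, mul_one])))
  rw [norm_mul, Complex.norm_natCast]
  refine mul_le_mul_of_nonneg_left (le_trans (le_of_eq ?_) (Complex.abs_re_le_norm _))
    (Nat.cast_nonneg M)
  simp

/-- **Off the arcs.** -/
theorem exists_minor_part {k : ℕ} (hk : 2 ≤ k) (e : ℕ) : ∃ (K₁ : ℕ) (C L₀ : ℝ), 0 < C ∧
    ∀ K N M : ℕ, K₁ ≤ K → 1 ≤ N → L₀ ≤ Real.log N → Real.log N ^ K ≤ N → N < M →
      ∀ A : Finset ℕ, A ⊆ range M →
      (∀ h ∈ A, ∀ z ∈ arcCentres ⌊Real.log N ^ K⌋₊,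
        Real.log N ^ K / N < nearDist ((h : ℝ) / M - centre z)) →
      ∑ h ∈ A, ‖twist ((h : ℝ) / M) Λ N * (twist ((h : ℝ) / M) Λ N *
          powTwist k ((h : ℝ) / M) Λ (WaringAsymptotic.rootFloor k N))‖ ≤
        C * ((M : ℝ) * (N * powerScale k N / Real.log N ^ e)) := by
  obtain ⟨K₁, C, L₁, -, hC, hoff⟩ := WaringGoldbach.exists_minor_bound hk (e + 1)
  have hk0 : (0 : ℝ) < k := Nat.cast_pos.2 (by omega)
  refine ⟨K₁, 6 * ((2 * k) ^ (e + 1) * C), max (4 * k) (2 * k * L₁), by positivity,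
    fun K N M hKK hN hl hlN hNM A hA hout => ?_⟩
  simp only [max_le_iff] at hl
  obtain ⟨-, hL3, hLl, hlL⟩ := log_rootFloor_spec hk hN hl.1
  obtain ⟨hS1, -, -, hPS, -⟩ := powerScale_spec hk hN
  obtain ⟨l, hl'⟩ : ∃ l, l = Real.log N := ⟨_, rfl⟩
  rw [← hl'] at hl hlN hout hLl hlL ⊢
  obtain ⟨L, hL⟩ : ∃ L, L = Real.log (WaringAsymptotic.rootFloor k N) := ⟨_, rfl⟩
  rw [← hL] at hL3 hLl hlL
  have hL0 : 0 < L := by linarith
  have hl1 : 1 ≤ l := by linarith
  have hl0 : 0 < l := by linarith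
  have hLL : L₁ ≤ L :=
    le_of_mul_le_mul_left (hl.2.trans hlL) (show (0 : ℝ) < 2 * k by positivity)
  have hLK : L ^ K₁ ≤ l ^ K := (pow_le_pow_left₀ hL0.le hLl K₁).trans (pow_le_pow_right₀ hl1 hKK)
  refine (sum_le_sum (g := fun h : ℕ => (2 * k) ^ (e + 1) * C *
      (powerScale k N / l ^ (e + 1)) *
    ‖trigSum (fun m => (Λ m : ℂ)) N ((h : ℝ) / M)‖ ^ 2) fun h hh => ?_).trans ?_
  · rw [norm_mul, norm_mul, ← mul_assoc, ← sq, mul_comm (_ ^ 2), twist_eq_trigSum]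
    refine mul_le_mul_of_nonneg_right ?_ (sq_nonneg _)
    refine (hoff N _ _ rfl hN (hL ▸ hLL) (hL ▸ hLK.trans hlN) fun z hz => ?_).trans ?_
    · rw [← hL] at hz ⊢
      refine lt_of_le_of_lt (div_le_div_of_nonneg_right hLK (Nat.cast_nonneg N)) (hout h hh z ?_)
      rw [mem_arcCentres] at hz ⊢
      exact ⟨⟨hz.1.1, hz.1.2.trans (Nat.floor_le_floor hLK)⟩, hz.2⟩
    · rw [← hL, mul_comm ((2 * (k : ℝ)) ^ (e + 1)) C, mul_assoc C]
      refine mul_le_mul_of_nonneg_left ?_ hC.le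
      rw [mul_div_assoc', div_le_div_iff₀ (by positivity) (by positivity)]
      calc (WaringAsymptotic.rootFloor k N : ℝ) * l ^ (e + 1)
          ≤ powerScale k N * (2 * k * L) ^ (e + 1) :=
            mul_le_mul hPS (pow_le_pow_left₀ hl0.le hlL _) (by positivity) (by linarith)
        _ = _ := by rw [mul_pow]; ring
  rw [← mul_sum]
  refine (mul_le_mul_of_nonneg_left (sum_le_sum_of_subset_of_nonneg hA
    fun i _ _ => sq_nonneg _) (by positivity)).trans ?_
  rw [sum_norm_sq_grid _ hNM]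
  have hsq : ∑ m ∈ Icc 1 N, ‖(Λ m : ℂ)‖ ^ 2 ≤ l * (6 * N) := by
    rw [show Icc 1 N = Ioc 0 N by ext; simp; omega]
    refine le_trans (sum_le_sum (g := fun m => l * Λ m) fun m hm => ?_) ?_
    · rw [Complex.norm_real, Real.norm_eq_abs, sq_abs, sq]
      refine mul_le_mul_of_nonneg_right (vonMangoldt_le_log.trans ?_) vonMangoldt_nonneg
      rw [mem_Ioc] at hm
      exact hl' ▸ Real.log_le_log (Nat.cast_pos.2 hm.1) (Nat.cast_le.2 hm.2)
    · rw [← mul_sum]
      exact mul_le_mul_of_nonneg_left (sum_vonMangoldt_le N) hl0.le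
  refine (mul_le_mul_of_nonneg_left (mul_le_mul_of_nonneg_left hsq (Nat.cast_nonneg M))
    (by positivity)).trans (le_of_eq ?_)
  rw [pow_succ l e]
  field_simp

/-- **One point of an arc.** -/
theorem exists_major_point {k : ℕ} (hk : 2 ≤ k) {K J : ℕ} (hKJ : K ≤ J) (B : ℕ) :
    ∃ C L₀ : ℝ, 0 < C ∧
    ∀ N : ℕ, 2 ≤ N → L₀ ≤ Real.log N → ∀ z ∈ arcCentres ⌊Real.log N ^ K⌋₊, ∀ t : ℝ,
      nearDist (t - centre z) ≤ Real.log N ^ J / N →
        ‖twist t Λ N * (twist t Λ N * powTwist k t Λ (WaringAsymptotic.rootFloor k N)) -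
          pairModel k N z t‖ ≤ C * (powerScale k N * N ^ 2 / Real.log N ^ B) := by
  obtain ⟨C₁, hC₁, hmaj⟩ := exists_major_approx J B
  obtain ⟨C₂, hC₂, hpmaj⟩ :=
    WaringGoldbach.exists_pow_major (show 1 ≤ k by omega) (K + 1) (B + J)
  obtain ⟨K₀, hK₀, hpow⟩ := exists_log_pow_le_scale hk (B + J)
  have hk0 : (0 : ℝ) < k := Nat.cast_pos.2 (by omega)
  obtain ⟨G, hG⟩ : ∃ G : ℝ, G = 9 * (C₂ * (2 * k) ^ (B + J) + 2 * K₀) := ⟨_, rfl⟩
  refine ⟨42 * C₁ + G, max (4 * k) (2 * k * (2 * k) ^ K), by rw [hG]; positivity,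
    fun N hN hl z hz t ht => ?_⟩
  simp only [max_le_iff] at hl
  obtain ⟨hP2, hL3, hLl, hlL⟩ := log_rootFloor_spec hk (show 1 ≤ N by omega) hl.1
  obtain ⟨hS1, -, -, hPS, -⟩ := powerScale_spec hk (show 1 ≤ N by omega)
  obtain ⟨S, hS⟩ : ∃ S, S = powerScale k N := ⟨_, rfl⟩
  have hlpow := hpow N (show 1 ≤ N by omega)
  obtain ⟨-, hPN, hNP⟩ :=
    WaringAsymptotic.rootFloor_spec (show 1 ≤ k by omega) (show 1 ≤ N by omega)
  obtain ⟨P, hP⟩ : ∃ P, P = WaringAsymptotic.rootFloor k N := ⟨_, rfl⟩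
  rw [← hP] at hP2 hL3 hLl hlL hPS hPN hNP ⊢
  rw [← hS] at hS1 hPS hlpow ⊢
  obtain ⟨L, hL⟩ : ∃ L, L = Real.log P := ⟨_, rfl⟩
  rw [← hL] at hL3 hLl hlL
  obtain ⟨l, hl'⟩ : ∃ l, l = Real.log N := ⟨_, rfl⟩
  rw [← hl'] at hl hz ht hlpow hLl hlL ⊢
  have hL0 : 0 < L := by linarith
  have hl1 : 1 ≤ l := by linarith
  have hl0 : 0 < l := by linarith
  have hN0 : (0 : ℝ) < N := Nat.cast_pos.2 (by omega)
  obtain ⟨q, r⟩ := z
  obtain ⟨⟨hq, hqQ⟩, -, hcop⟩ := mem_arcCentres.1 hz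
  simp only at hq hqQ hcop
  have : NeZero q := ⟨by omega⟩
  have hqR : (q : ℝ) ≤ l ^ K := (Nat.cast_le.2 hqQ).trans (Nat.floor_le (by positivity))
  have hqL : (q : ℝ) ≤ L ^ (K + 1) := by
    refine hqR.trans ((pow_le_pow_left₀ hl0.le hlL K).trans ?_)
    rw [mul_pow, pow_succ', mul_comm L]
    rw [mul_comm (L ^ K)]
    refine mul_le_mul_of_nonneg_right ?_ (by positivity)
    exact le_of_mul_le_mul_left (hl.2.trans hlL) (show (0 : ℝ) < 2 * k by positivity)
  rw [nearDist] at ht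
  obtain ⟨j, hj⟩ : ∃ j, j = round (t - centre ⟨q, r⟩) := ⟨_, rfl⟩
  obtain ⟨β, hβ⟩ : ∃ β, β = t - centre ⟨q, r⟩ - j := ⟨_, rfl⟩
  rw [← hj, ← hβ] at ht
  have hβN : |β| * N ≤ l ^ J := by rwa [← le_div_iff₀ hN0]
  have hα1 : twist t Λ N = twist (((r : ℤ) : ℝ) / (q : ℝ) + β) Λ N := by
    refine sum_congr rfl fun x _ => congrArg _ ?_
    rw [← eAdd_add_intCast _ (-(j * (x : ℤ))), hβ, centre]
    push_cast
    ring_nf
  have hα2 : powTwist k t Λ P = powTwist k (((r : ℤ) : ℝ) / (q : ℝ) + β) Λ P := by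
    refine sum_congr rfl fun x _ => congrArg _ ?_
    rw [← eAdd_add_intCast _ (-(j * (x : ℤ) ^ k)), hβ, centre]
    push_cast
    ring_nf
  have hunit : IsUnit ((r : ℤ) : ZMod q) := by
    rw [Int.cast_natCast]
    exact (ZMod.isUnit_iff_coprime r q).2 hcop.symm
  have hf := hmaj N q (r : ℤ) β hN hunit
    (hl' ▸ hqR.trans (pow_le_pow_right₀ hl1 hKJ)) (hl' ▸ hβN)
  have hg := hpmaj N P q (r : ℤ) β hP2 hPN hNP (hL ▸ hqL)
  rw [← hα2, ← hL] at hg
  rw [← hα1, ← hl'] at hf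
  obtain ⟨a, ha⟩ : ∃ a, a = ((moebiusR q / q.totient : ℝ) : ℂ) * geomSum N β := ⟨_, rfl⟩
  obtain ⟨b, hb⟩ : ∃ b, b = unitFactor k q (r : ℤ) *
      WaringAsymptotic.weightSum (1 / (k : ℝ)) N β := ⟨_, rfl⟩
  have e1 : geomSum N (t - centre ⟨q, r⟩) = geomSum N β := by rw [hβ, geomSum_sub_intCast]
  have e2 : WaringAsymptotic.weightSum (1 / (k : ℝ)) N (t - centre ⟨q, r⟩) =
      WaringAsymptotic.weightSum (1 / (k : ℝ)) N β := by
    rw [hβ, WaringAsymptotic.weightSum_sub_intCast]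
  rw [pairModel, e1, e2, show pairCoeff k ⟨q, r⟩ * (geomSum N β *
      (geomSum N β * WaringAsymptotic.weightSum (1 / (k : ℝ)) N β)) = a * (a * b) by
    rw [ha, hb, pairCoeff, PrimePlusPrimePower.jointCoeff]; ring]
  rw [← ha] at hf
  rw [← hb] at hg
  obtain ⟨f, hf'⟩ : ∃ f, f = twist t Λ N := ⟨_, rfl⟩
  obtain ⟨g, hg'⟩ : ∃ g, g = powTwist k t Λ P := ⟨_, rfl⟩
  rw [← hf'] at hf ⊢
  rw [← hg'] at hg ⊢
  have na : ‖a‖ ≤ N := by
    rw [ha, norm_mul]
    refine (mul_le_of_le_one_left (norm_nonneg _)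
      (PrimePlusSquare.norm_moebius_ratio_le q)).trans ?_
    refine (norm_geom_le β 0 N).trans ((clip_le _ _).trans ?_)
    simp
  have nf : ‖f‖ ≤ 6 * N := hf' ▸ norm_twist_le t N
  have ng : ‖g‖ ≤ 6 * S := hg' ▸ (WaringGoldbach.norm_powTwist_le (fun _ => vonMangoldt_nonneg)
    (fun _ => le_rfl) _ _).trans (mul_le_mul_of_nonneg_left hPS (by norm_num))
  have h1 : 1 + 2 * π * |β| * N ≤ 9 * l ^ J := by
    have := mul_le_mul_of_nonneg_left hβN (show (0 : ℝ) ≤ 2 * π by positivity)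
    have := mul_le_mul_of_nonneg_right Real.pi_le_four
      (show (0 : ℝ) ≤ l ^ J by positivity)
    have : 1 ≤ l ^ J := one_le_pow₀ hl1
    linarith
  have h2 : ‖g - b‖ ≤ G * (S / l ^ B) := by
    have h3 : (P : ℝ) / L ^ (B + J) ≤ (2 * k) ^ (B + J) * (S / l ^ (B + J)) := by
      rw [mul_div_assoc', div_le_div_iff₀ (by positivity) (by positivity)]
      calc (P : ℝ) * l ^ (B + J) ≤ S * (2 * k * L) ^ (B + J) :=
            mul_le_mul hPS (pow_le_pow_left₀ hl0.le hlL _) (by positivity) (by linarith)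
        _ = _ := by rw [mul_pow]; ring
    have h4 : 1 ≤ K₀ * (S / l ^ (B + J)) := by
      rw [mul_div_assoc', one_le_div (by positivity)]
      exact hlpow
    refine hg.trans ((mul_le_mul (add_le_add (mul_le_mul_of_nonneg_left h3 hC₂.le)
      (le_mul_of_one_le_right two_pos.le h4)) h1 (by positivity) (by positivity)).trans
      (le_of_eq ?_))
    rw [hG, pow_add l]
    field_simp
  rw [show f * (f * g) - a * (a * b) = (f - a) * (f * g) + a * ((f - a) * g + a * (g - b)) by ring]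
  refine (norm_add_le _ _).trans ?_
  rw [norm_mul, norm_mul, norm_mul]
  refine (add_le_add (mul_le_mul hf (mul_le_mul nf ng (norm_nonneg _) (by positivity))
    (by positivity) (by positivity)) (mul_le_mul na ((norm_add_le _ _).trans (add_le_add
      ((norm_mul _ _).trans_le (mul_le_mul hf ng (norm_nonneg _) (by positivity)))
      ((norm_mul _ _).trans_le (mul_le_mul na h2 (norm_nonneg _) hN0.le))))
    (norm_nonneg _) hN0.le)).trans (le_of_eq ?_)
  ring

/-- **The model off its arc.** -/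
theorem sum_norm_pairModel_off_le {k N M : ℕ} [NeZero M] (hk : 1 ≤ k) (hN : 1 ≤ N) {δ l : ℝ}
    (hδ : 1 / (N : ℝ) ≤ δ) (hl : 1 ≤ l) (hNM : N ≤ M) (hlog : 1 + Real.log M ≤ 4 * l)
    (z : Σ _ : ℕ, ℕ) :
    ∑ h ∈ (range M).filter (fun h => h ∉ arc M δ z), ‖pairModel k N z ((h : ℝ) / M)‖ ≤
      38 * δ ^ (-(1 + 1 / (k : ℝ))) * ((M : ℝ) * l) := by
  have hk0 : (0 : ℝ) < k := Nat.cast_pos.2 hk
  obtain ⟨c, hc⟩ : ∃ c : ℝ, c = 1 / (k : ℝ) := ⟨_, rfl⟩
  have hc0 : 0 < c := by rw [hc]; positivity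
  have hc1 : c ≤ 1 := by
    rw [hc, div_le_one hk0]
    exact_mod_cast hk
  rw [← hc]
  have hN0 : (0 : ℝ) < N := Nat.cast_pos.2 hN
  have hδ0 : 0 < δ := lt_of_lt_of_le (by positivity) hδ
  obtain ⟨Z, hZ⟩ : ∃ Z, Z = 1 / (2 * δ) := ⟨_, rfl⟩
  have hZ0 : 0 < Z := by rw [hZ]; positivity
  refine (sum_le_sum (g := fun h : ℕ =>
    3 / 2 * δ ^ (-(1 + c)) * clip Z ((h : ℝ) / M - centre z)) fun h hh => ?_).trans ?_
  · rw [mem_filter, arc, mem_filter, not_and, not_le] at hh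
    have hd := hh.2 hh.1
    obtain ⟨d, hd'⟩ : ∃ d, d = nearDist ((h : ℝ) / M - centre z) := ⟨_, rfl⟩
    rw [← hd'] at hd
    have hd0 : 0 < d := hδ0.trans hd
    have h1 := WaringAsymptotic.norm_weightSum_le_inv hc0 hc1 N (hd' ▸ hd0)
    rw [← hd'] at h1
    have h2 : ‖geomSum N ((h : ℝ) / M - centre z)‖ ≤ 1 / (2 * d) :=
      (norm_geom_le _ 0 N).trans (clip_le_inv hd0 hd'.le)
    have hclip : clip Z ((h : ℝ) / M - centre z) = 1 / (2 * d) := by
      rw [clip, ← hd', if_neg hd0.ne', min_eq_right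
        (hZ ▸ one_div_le_one_div_of_le (by positivity) (by linarith))]
    rw [pairModel, ← hc, norm_mul, norm_mul, norm_mul, hclip]
    refine (mul_le_of_le_one_left (by positivity) (norm_pairCoeff_le_one k z)).trans ?_
    refine (mul_le_mul h2 (mul_le_mul h2 h1 (norm_nonneg _) (by positivity))
      (by positivity) (by positivity)).trans ?_
    rw [mul_comm (3 / 2 * δ ^ (-(1 + c)))]
    refine mul_le_mul_of_nonneg_left (le_of_eq_of_le ?_ (mul_le_mul_of_nonneg_left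
      (Real.rpow_le_rpow_of_nonpos hδ0 hd.le (by linarith)) (by norm_num))) (by positivity)
    rw [neg_add, Real.rpow_add hd0, Real.rpow_neg_one]
    field_simp
  rw [← mul_sum]
  refine (mul_le_mul_of_nonneg_left ((sum_le_sum_of_subset_of_nonneg (filter_subset _ _)
    fun i _ _ => clip_nonneg hZ0.le _).trans (sum_clip_grid_le (centre z) hZ0.le))
    (by positivity)).trans ?_
  have hZM : 5 * Z + 2 * M * (1 + Real.log M) ≤ 25 * M * l := by
    have h1 : Z ≤ (M : ℝ) := by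
      rw [hZ, div_le_iff₀ (by positivity)]
      rw [div_le_iff₀ hN0] at hδ
      have := mul_le_mul_of_nonneg_right (Nat.cast_le.2 hNM : (N : ℝ) ≤ M) hδ0.le
      linarith
    have h2 := mul_le_mul_of_nonneg_left hlog (show 0 ≤ 2 * (M : ℝ) by positivity)
    have h3 := mul_le_mul_of_nonneg_left hl (Nat.cast_nonneg (α := ℝ) M)
    linarith
  calc 3 / 2 * δ ^ (-(1 + c)) * (5 * Z + 2 * M * (1 + Real.log M))
      ≤ 3 / 2 * δ ^ (-(1 + c)) * (25 * M * l) := by gcongr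
    _ ≤ _ := by
      have : 0 ≤ δ ^ (-(1 + c)) * ((M : ℝ) * l) := by positivity
      linarith

/-- **The circle method.** -/
theorem exists_circle_bound {k : ℕ} (hk : 2 ≤ k) (e : ℕ) :
    ∃ (K N₀ : ℕ) (C : ℝ), 16 * e ≤ K ∧ 0 < C ∧ ∀ N : ℕ, N₀ ≤ N →
      1 ≤ Real.log N ∧ |tripleReps primeTriple k N -
          pairWeight k N * (∑ q ∈ Icc 1 ⌊Real.log N ^ K⌋₊, pairTerm k N q).re| ≤
        C * ((N : ℝ) * powerScale k N / Real.log N ^ e) := by
  classical
  obtain ⟨K₁, C₁, L₁, hC₁, hminor⟩ := exists_minor_part hk e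
  obtain ⟨K, hK⟩ : ∃ K, K = K₁ + 16 * e := ⟨_, rfl⟩
  obtain ⟨J, hJ⟩ : ∃ J, J = 2 * K + e + 1 := ⟨_, rfl⟩
  obtain ⟨B, hB⟩ : ∃ B, B = 2 * K + J + 1 + e := ⟨_, rfl⟩
  obtain ⟨C₂, L₂, hC₂, hmajor⟩ := exists_major_point hk (show K ≤ J by omega) B
  obtain ⟨K₀, hK₀, hpow⟩ := exists_log_pow_le_scale hk (J + 2 * K)
  refine ⟨K, max ⌈Real.exp (max 2 (max L₁ L₂))⌉₊ ⌈(2 * K₀ + 1) ^ k⌉₊,
    C₁ + 69 * C₂ + 38, by omega, by positivity, fun N hN => ?_⟩
  simp only [max_le_iff] at hN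
  have hN' : Real.exp (max 2 (max L₁ L₂)) ≤ N := (Nat.le_ceil _).trans (Nat.cast_le.2 hN.1)
  have hN0 : (0 : ℝ) < N := lt_of_lt_of_le (Real.exp_pos _) hN'
  have hN2 : 2 ≤ N := by
    have : (2 : ℝ) ≤ N :=
      le_trans (by linarith [Real.add_one_le_exp (max 2 (max L₁ L₂)),
        le_max_left (2 : ℝ) (max L₁ L₂)]) hN'
    exact_mod_cast this
  obtain ⟨hS1, hS2, hSk, -, -⟩ := powerScale_spec hk (show 1 ≤ N by omega)
  have hlpow := hpow N (show 1 ≤ N by omega)
  obtain ⟨S, hS⟩ : ∃ S, S = powerScale k N := ⟨_, rfl⟩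
  rw [← hS] at hS1 hS2 hSk hlpow ⊢
  have hS0 : 0 < S := by linarith
  obtain ⟨l, hl⟩ : ∃ l, l = Real.log N := ⟨_, rfl⟩
  rw [← hl] at hlpow ⊢
  have hlge : max 2 (max L₁ L₂) ≤ l := hl ▸ (Real.le_log_iff_exp_le hN0).2 hN'
  simp only [max_le_iff] at hlge
  refine ⟨by linarith, ?_⟩
  have hl0 : 0 < l := by linarith
  have hl1 : 1 ≤ l := by linarith
  have hSK : 2 * K₀ + 1 ≤ S := by
    refine le_of_pow_le_pow_left₀ (by omega : k ≠ 0) hS0.le ?_
    rw [hSk]
    exact (Nat.le_ceil _).trans (Nat.cast_le.2 hN.2)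
  obtain ⟨Q, hQ⟩ : ∃ Q, Q = ⌊l ^ K⌋₊ := ⟨_, rfl⟩
  have hlQ : 1 ≤ l ^ K := one_le_pow₀ hl1
  have hQl : (Q : ℝ) ≤ l ^ K := hQ ▸ Nat.floor_le (by linarith)
  have hlN : l ^ (J + 2 * K) * 2 < N := by
    calc l ^ (J + 2 * K) * 2 ≤ K₀ * S * 2 := mul_le_mul_of_nonneg_right hlpow two_pos.le
      _ < S ^ 2 := by nlinarith
      _ ≤ N := hS2
  have hlKN : l ^ K ≤ N := by
    have := pow_le_pow_right₀ hl1 (show K ≤ J + 2 * K by omega)
    linarith
  rw [← hQ]
  obtain ⟨M, hM⟩ : ∃ M, M = 4 * N := ⟨_, rfl⟩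
  have : NeZero M := ⟨by omega⟩
  have hMr : (M : ℝ) = 4 * N := by rw [hM]; push_cast; ring
  have hM0 : (0 : ℝ) < M := by rw [hMr]; positivity
  obtain ⟨δ, hδ⟩ : ∃ δ, δ = l ^ J / (N : ℝ) := ⟨_, rfl⟩
  have hδ0 : 0 < δ := by rw [hδ]; positivity
  have hlogM : 1 + Real.log M ≤ 4 * l := by
    rw [hMr, Real.log_mul (by norm_num) hN0.ne', ← hl, show (4 : ℝ) = 2 ^ 2 by norm_num,
      Real.log_pow]
    push_cast
    linarith [Real.log_two_lt_d9]
  refine le_of_mul_le_mul_left ((abs_pair_deviation_le (show 1 ≤ k by omega)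
    (show 1 ≤ N by omega) hM).trans ?_) hM0
  obtain ⟨F, hF⟩ : ∃ F : ℕ → ℂ, F = fun h : ℕ => twist ((h : ℝ) / M) Λ N *
      (twist ((h : ℝ) / M) Λ N * powTwist k ((h : ℝ) / M) Λ (WaringAsymptotic.rootFloor k N)) -
      ∑ z ∈ (arcCentres Q).filter (fun z => h ∈ arc M δ z), pairModel k N z ((h : ℝ) / M) :=
    ⟨_, rfl⟩
  obtain ⟨D, hD⟩ : ∃ D, D = (M : ℝ) * ((N : ℝ) * S / l ^ e) := ⟨_, rfl⟩
  have hrem : ∀ h : ℕ, pairRemainder k N Q ((h : ℝ) / M) =
      F h - ∑ z ∈ (arcCentres Q).filter (fun z => h ∉ arc M δ z),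
        pairModel k N z ((h : ℝ) / M) := fun h => by
    rw [pairRemainder, ← sum_filter_add_sum_filter_not (arcCentres Q) (fun z => h ∈ arc M δ z),
      hF, sub_sub]
  have huniq : ∀ h z u, z ∈ arcCentres Q → u ∈ arcCentres Q → h ∈ arc M δ z → h ∈ arc M δ u →
      z = u := by
    intro x z u hz hu hx hx'
    by_contra hne
    rw [arc, mem_filter] at hx hx'
    have h1 := inv_mul_le_nearDist_centre hz hu hne
    have h2 := nearDist_sub_sub_le (centre z) (centre u) ((x : ℝ) / M)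
    have hQ0 : (0 : ℝ) < Q := by
      rw [hQ, Nat.cast_pos, Nat.floor_pos]
      exact hlQ
    have h3 : 2 * δ < 1 / ((Q : ℝ) * Q) := by
      rw [hδ, mul_div_assoc', div_lt_div_iff₀ hN0 (by positivity), one_mul]
      calc 2 * l ^ J * ((Q : ℝ) * Q)
          ≤ 2 * (l ^ J * (l ^ K * l ^ K)) := by
            rw [mul_assoc]
            gcongr
        _ = l ^ (J + 2 * K) * 2 := by ring
        _ < N := hlN
    linarith
  have hA : ∑ h ∈ range M, ‖F h‖ ≤ (C₁ + 69 * C₂) * D := by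
    rw [← sum_filter_add_sum_filter_not (range M) (fun h => ∀ z ∈ arcCentres Q, h ∉ arc M δ z),
      add_mul]
    refine add_le_add ?_ ?_
    · refine le_trans (le_of_eq (sum_congr rfl fun h hh => ?_)) ((hminor K N M (by omega)
        (by omega) (hl ▸ hlge.2.1) (hl ▸ hlKN) (by omega) _ (filter_subset _ _)
        fun h hh z hz => ?_).trans (le_of_eq ?_))
      · rw [mem_filter] at hh
        rw [hF]
        simp only
        rw [filter_eq_empty_iff.2 fun z hz => hh.2 z hz, sum_empty, sub_zero]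
      · rw [mem_filter] at hh
        rw [← hl, ← hQ] at hz
        have h1 := hh.2 z hz
        simp only [arc, mem_filter, not_and, not_le] at h1
        rw [← hl]
        refine lt_of_le_of_lt ?_ (h1 hh.1)
        rw [hδ]
        exact div_le_div_of_nonneg_right (pow_le_pow_right₀ hl1 (by omega)) hN0.le
      · rw [hD, ← hl, ← hS]
    · obtain ⟨X, hX⟩ : ∃ X, X = C₂ * (S * N ^ 2 / l ^ B) := ⟨_, rfl⟩
      refine (sum_le_card_nsmul _ _ X fun h hh => ?_).trans ?_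
      · rw [mem_filter] at hh
        push Not at hh
        obtain ⟨z, hz, hhz⟩ := hh.2
        rw [hF]
        simp only
        rw [show (arcCentres Q).filter (fun z => h ∈ arc M δ z) = {z} from
          eq_singleton_iff_unique_mem.2 ⟨mem_filter.2 ⟨hz, hhz⟩, fun u hu =>
            huniq h u z (mem_filter.1 hu).1 hz (mem_filter.1 hu).2 hhz⟩, sum_singleton]
        rw [arc, mem_filter] at hhz
        have := hmajor N hN2 (hl ▸ hlge.2.2) z (by rw [← hl, ← hQ]; exact hz) ((h : ℝ) / M)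
          (by rw [← hl, ← hδ]; exact hhz.2)
        rwa [← hl, ← hS, ← hX] at this
      rw [nsmul_eq_mul]
      have hcard : (((range M).filter fun h => ¬∀ z ∈ arcCentres Q, h ∉ arc M δ z).card : ℝ) ≤
          69 * (l ^ (2 * K) * (l ^ J * l)) := by
        refine (Nat.cast_le.2 ((card_le_card fun h hh => ?_).trans card_biUnion_le :
          ((range M).filter fun h => ¬∀ z ∈ arcCentres Q, h ∉ arc M δ z).card ≤
            ∑ z ∈ arcCentres Q, (arc M δ z).card)).trans ?_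
        · rw [mem_filter] at hh
          push Not at hh
          exact mem_biUnion.2 hh.2
        push_cast
        refine (sum_le_card_nsmul _ _ (69 * (l ^ J * l)) fun z _ => ?_).trans ?_
        · refine (card_arc_le hδ0 z).trans ?_
          have hMd : 4 * (M : ℝ) * δ = 16 * l ^ J := by
            rw [hMr, hδ]; field_simp; ring
          rw [hMd]
          have := mul_le_mul_of_nonneg_left hlogM (show 0 ≤ 16 * l ^ J by positivity)
          have : 1 ≤ l ^ J * l :=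
            one_le_mul_of_one_le_of_one_le (one_le_pow₀ hl1) hl1
          linarith
        · rw [nsmul_eq_mul]
          exact (mul_le_mul_of_nonneg_right ((FourCubes.card_arcCentres_le Q).trans
            (pow_le_pow_left₀ (Nat.cast_nonneg _) hQl 2)) (by positivity)).trans
              (le_of_eq (by ring))
      refine (mul_le_mul_of_nonneg_right hcard (by rw [hX]; positivity)).trans ?_
      calc 69 * (l ^ (2 * K) * (l ^ J * l)) * X
          = 69 * C₂ * ((N : ℝ) * ((N : ℝ) * S / l ^ e)) := by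
            rw [hX, hB]
            field_simp
            ring
        _ ≤ 69 * C₂ * D := by
            rw [hD]
            refine mul_le_mul_of_nonneg_left (mul_le_mul_of_nonneg_right ?_ (by positivity))
              (by positivity)
            rw [hMr]
            linarith
  have hB' : ∑ h ∈ range M,
      ‖∑ z ∈ (arcCentres Q).filter (fun z => h ∉ arc M δ z), pairModel k N z ((h : ℝ) / M)‖ ≤
      38 * D := by
    have h1 : ∀ h : ℕ, ‖∑ z ∈ (arcCentres Q).filter (fun z => h ∉ arc M δ z),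
        pairModel k N z ((h : ℝ) / M)‖ ≤ ∑ z ∈ arcCentres Q,
          if h ∉ arc M δ z then ‖pairModel k N z ((h : ℝ) / M)‖ else 0 := fun h =>
      (norm_sum_le _ _).trans (le_of_eq (sum_filter _ _))
    refine (sum_le_sum fun h _ => h1 h).trans ?_
    rw [sum_comm]
    have hoff : ∀ z ∈ arcCentres Q, (∑ h ∈ range M,
        if h ∉ arc M δ z then ‖pairModel k N z ((h : ℝ) / M)‖ else 0) ≤
          38 * δ ^ (-(1 + 1 / (k : ℝ))) * ((M : ℝ) * l) := by
      intro z _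
      rw [← sum_filter]
      refine sum_norm_pairModel_off_le (show 1 ≤ k by omega) (by omega) ?_ hl1 (by omega) hlogM z
      rw [hδ]
      exact div_le_div_of_nonneg_right (one_le_pow₀ hl1) hN0.le
    have hδbd : δ ^ (-(1 + 1 / (k : ℝ))) ≤ (N : ℝ) * S / l ^ J := by
      have hk0 : (0 : ℝ) < k := Nat.cast_pos.2 (by omega)
      rw [Real.rpow_neg hδ0.le, hδ, Real.div_rpow (by positivity) hN0.le, inv_div]
      refine div_le_div₀ (by positivity) (le_of_eq ?_) (by positivity) ?_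
      · rw [Real.rpow_add hN0, Real.rpow_one, hS, powerScale]
      · exact Real.self_le_rpow_of_one_le (one_le_pow₀ hl1)
          (le_add_of_nonneg_right (by positivity))
    refine ((sum_le_card_nsmul _ _ _ hoff).trans (le_of_eq_of_le
      (nsmul_eq_mul _ _) (mul_le_mul ((FourCubes.card_arcCentres_le Q).trans
        (pow_le_pow_left₀ (Nat.cast_nonneg _) hQl 2))
        (mul_le_mul_of_nonneg_right (mul_le_mul_of_nonneg_left hδbd (by norm_num))
          (by positivity)) (by positivity) (by positivity)))).trans (le_of_eq ?_)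
    rw [hD, hJ]
    field_simp
    ring
  simp only [hrem]
  refine (sum_le_sum fun h _ => norm_sub_le _ _).trans ?_
  rw [sum_add_distrib]
  refine (add_le_add hA hB').trans (le_of_eq ?_)
  rw [hD]
  ring

end FA.TwoPrimesPrimePower
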