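import Fermat.Agent.TwoPrimesPrimePower.Circle
import Fermat.Agent.ThreePrimes.Main

/-!
# Two primes and the `k`-th power of a prime

The singular integral is a Gamma quotient, `N ^ (1 + 1/k) k / (k + 1) + O (N ^ (1/k))`; with the
singular series it gives the asymptotic formula, and the prime powers are negligible.
-/

set_option autoImplicit false

noncomputable section

namespace FA.TwoPrimesPrimePower

open Finset FA.ThreePrimes ArithmeticFunction Filter
open FA.PrimePlusPower (powerVars powerScale powerScale_spec exists_log_pow_le_scale)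
open FA.WaringAsymptotic (weight sum_weight sum_negBinom negBinom negBinom_mul_Gamma
  Gamma_ratio_bounds rpow_sub_rpow_le rootFloor rootFloor_spec)
open scoped Real

/-! ### The singular integral -/

theorem pairWeight_eq (k : ℕ) {N : ℕ} (hN : 3 ≤ N) :
    pairWeight k N = Real.Gamma (1 + 1 / (k : ℝ)) * negBinom (1 / (k : ℝ) + 1 + 1) (N - 3) := by
  obtain ⟨c, hc⟩ : ∃ c : ℝ, c = 1 / (k : ℝ) := ⟨_, rfl⟩
  rw [pairWeight, ← hc]
  have e : ∑ z ∈ (Ioc 0 N ×ˢ (Ioc 0 N ×ˢ Ioc 0 N)).filter (fun z => z.1 + (z.2.1 + z.2.2) = N),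
      weight c z.2.2 = ∑ x ∈ (range (N - 2)).sigma (fun i => Ioc 0 (i + 1)), weight c x.2 := by
    refine sum_nbij' (fun z => ⟨z.2.1 + z.2.2 - 2, z.2.2⟩)
      (fun x => (N - 2 - x.1, x.1 + 2 - x.2, x.2)) (fun z hz => ?_) (fun x hx => ?_)
      (fun z hz => ?_) (fun x hx => ?_) fun z _ => rfl
    · simp only [mem_filter, mem_product, mem_Ioc] at hz
      simp only [mem_sigma, mem_range, mem_Ioc]
      omega
    · simp only [mem_sigma, mem_range, mem_Ioc] at hx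
      simp only [mem_filter, mem_product, mem_Ioc]
      omega
    · simp only [mem_filter, mem_product, mem_Ioc] at hz
      refine Prod.ext ?_ (Prod.ext ?_ rfl) <;> simp only <;> omega
    · simp only [mem_sigma, mem_range, mem_Ioc] at hx
      refine Sigma.ext ?_ HEq.rfl
      simp only
      omega
  rw [e, sum_sigma]
  simp only [sum_weight, ← mul_sum]
  rw [show N - 2 = N - 3 + 1 by omega, sum_negBinom]

/-- **The singular integral.** -/
theorem abs_pairWeight_sub_le {k N : ℕ} (hk : 1 ≤ k) (hN : 4 ≤ N) :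
    |pairWeight k N - (k : ℝ) / (k + 1) * (N : ℝ) ^ (1 + 1 / (k : ℝ))| ≤
      6 * (N : ℝ) ^ (1 / (k : ℝ)) := by
  obtain ⟨c, hc⟩ : ∃ c : ℝ, c = 1 / (k : ℝ) := ⟨_, rfl⟩
  have hk1 : (1 : ℝ) ≤ k := by exact_mod_cast hk
  have hk0 : (0 : ℝ) < k := by linarith
  have hc0 : 0 < c := by rw [hc]; positivity
  have hc1 : c ≤ 1 := by rw [hc, div_le_one hk0]; exact hk1
  have hfrac : (k : ℝ) / (k + 1) = 1 / (1 + c) := by
    rw [hc]
    field_simp
  obtain ⟨n, hn⟩ : ∃ n : ℕ, n = N - 3 := ⟨_, rfl⟩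
  have hn1 : (1 : ℝ) ≤ n := by exact_mod_cast (show 1 ≤ n by omega)
  have hnN : (n : ℝ) + 3 = N := by exact_mod_cast (show n + 3 = N by omega)
  have hN0 : (0 : ℝ) < N := by linarith
  have hg := Real.Gamma_pos_of_pos (show 0 < 1 + c by linarith)
  obtain ⟨R, hR⟩ : ∃ R, R = Real.Gamma ((n : ℝ) + 1 + (1 + c)) / Real.Gamma ((n : ℝ) + 1) :=
    ⟨_, rfl⟩
  have hJ : pairWeight k N = 1 / (1 + c) * R := by
    rw [pairWeight_eq k (by omega), ← hc, ← hn, hR,
      show (n : ℝ) + 1 + (1 + c) = (n : ℝ) + (c + 1 + 1) by ring,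
      ← negBinom_mul_Gamma (by linarith : 0 < c + 1 + 1) n, Real.Gamma_nat_eq_factorial,
      Real.Gamma_add_one (by linarith : c + 1 ≠ 0), add_comm c 1]
    have : (n.factorial : ℝ) ≠ 0 := Nat.cast_ne_zero.2 n.factorial_ne_zero
    have : (1 : ℝ) + c ≠ 0 := by linarith
    field_simp
  obtain ⟨hlo, hhi⟩ :=
    Gamma_ratio_bounds (a := (n : ℝ) + 1) (Y := 1 + c) (by linarith) (by linarith)
  rw [add_sub_cancel_right] at hlo
  have hgn := Real.Gamma_pos_of_pos (show 0 < (n : ℝ) + 1 by linarith)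
  have hlo' : (n : ℝ) ^ (1 + c) ≤ R := hR ▸ (le_div_iff₀ hgn).2 hlo
  have hhi' : R ≤ (N : ℝ) ^ (1 + c) :=
    (hR ▸ (div_le_iff₀ hgn).2 hhi).trans (Real.rpow_le_rpow (by linarith) (by linarith)
      (by linarith))
  have hd := rpow_sub_rpow_le (u := (n : ℝ)) (v := N) (Y := 1 + c) (by linarith) (by linarith)
    (by linarith)
  rw [add_sub_cancel_left, show (N : ℝ) - n = 3 by linarith] at hd
  have h1 : |R - (N : ℝ) ^ (1 + c)| ≤ 6 * (N : ℝ) ^ c := by
    rw [abs_sub_comm, abs_of_nonneg (by linarith)]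
    have := mul_le_mul_of_nonneg_right (show 1 + c ≤ 2 by linarith)
      (show 0 ≤ (N : ℝ) ^ c * 3 by positivity)
    linarith
  rw [hJ, hfrac, ← hc, ← mul_sub, abs_mul, abs_of_pos (by positivity : 0 < 1 / (1 + c))]
  refine (mul_le_of_le_one_left (abs_nonneg _) ?_).trans h1
  rw [div_le_one (by linarith)]
  linarith

/-- **The asymptotic formula.** -/
theorem exists_asymptotic {k : ℕ} (hk : 2 ≤ k) (e : ℕ) : ∃ (C : ℝ) (N₀ : ℕ), 0 < C ∧
    ∀ N : ℕ, N₀ ≤ N → |tripleReps primeTriple k N -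
        pairSeries k N * ((k : ℝ) / (k + 1) * (N : ℝ) ^ (1 + 1 / (k : ℝ)))| ≤
      C * ((N : ℝ) ^ (1 + 1 / (k : ℝ)) / Real.log N ^ e) := by
  obtain ⟨K, N₀, C₁, hK, hC₁, hcirc⟩ := exists_circle_bound hk e
  obtain ⟨Cs, hCs, hser⟩ := exists_pairSeries_tail (show 1 ≤ k by omega)
  obtain ⟨K₂, hK₂, hpow⟩ := exists_log_pow_le e
  refine ⟨C₁ + 6 * Cs * K₂ + Cs, max N₀ 4, by positivity, fun N hN => ?_⟩
  simp only [max_le_iff] at hN
  obtain ⟨hl1, hc⟩ := hcirc N hN.1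
  obtain ⟨l, hl⟩ : ∃ l, l = Real.log N := ⟨_, rfl⟩
  rw [← hl] at hl1 hc ⊢
  have hl0 : 0 < l := by linarith
  have hN1 : (1 : ℝ) ≤ N := by exact_mod_cast (show 1 ≤ N by omega)
  have hN0 : (0 : ℝ) < N := by linarith
  have hNS : (N : ℝ) ^ (1 + 1 / (k : ℝ)) = N * powerScale k N := by
    rw [Real.rpow_add hN0, Real.rpow_one, powerScale]
  have hJ := abs_pairWeight_sub_le (show 1 ≤ k by omega) hN.2
  rw [hNS] at hJ ⊢
  rw [show (N : ℝ) ^ (1 / (k : ℝ)) = powerScale k N from rfl] at hJ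
  obtain ⟨S, hS⟩ : ∃ S, S = powerScale k N := ⟨_, rfl⟩
  rw [← hS] at hc hJ ⊢
  have hS0 : 0 ≤ S := hS ▸ Real.rpow_nonneg hN0.le _
  obtain ⟨E, hE⟩ : ∃ E : ℝ, E = (N : ℝ) * S / l ^ e := ⟨_, rfl⟩
  rw [← hE] at hc ⊢
  obtain ⟨Q, hQ⟩ : ∃ Q, Q = ⌊l ^ K⌋₊ := ⟨_, rfl⟩
  rw [← hQ] at hc
  obtain ⟨hst, hsb⟩ := hser N Q
  obtain ⟨T, hT⟩ : ∃ T, T = (∑ q ∈ Icc 1 Q, pairTerm k N q).re := ⟨_, rfl⟩
  rw [← hT] at hc hst
  have hT1 : |T| ≤ Cs := hT ▸ (Complex.abs_re_le_norm _).trans hsb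
  obtain ⟨m, hm⟩ : ∃ m : ℝ, m = (k : ℝ) / (k + 1) := ⟨_, rfl⟩
  have hm0 : 0 ≤ m := by rw [hm]; positivity
  have hm1 : m ≤ 1 := by
    rw [hm, div_le_one (by positivity)]
    linarith
  rw [← hm] at hJ ⊢
  have h1 : |(pairWeight k N - m * (N * S)) * T| ≤ 6 * Cs * K₂ * E := by
    rw [abs_mul]
    refine (mul_le_mul hJ hT1 (abs_nonneg _) (by positivity)).trans ?_
    have h2 : l ^ e ≤ K₂ * N := by
      refine (hl ▸ hpow N hN1).trans (mul_le_mul_of_nonneg_left ?_ hK₂.le)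
      rw [Real.sqrt_le_left hN0.le]
      nlinarith
    have h3 : S ≤ K₂ * E := by
      rw [hE, mul_div_assoc', le_div_iff₀ (by positivity)]
      calc S * l ^ e ≤ S * (K₂ * N) := mul_le_mul_of_nonneg_left h2 hS0
        _ = _ := by ring
    have := mul_le_mul_of_nonneg_left h3 (show 0 ≤ 6 * Cs by positivity)
    linarith
  have h2 : |m * (N * S) * (T - pairSeries k N)| ≤ Cs * E := by
    have h3 : ((Q + 1 : ℕ) : ℝ) ^ (-(1 / 16) : ℝ) ≤ 1 / l ^ e := by
      have h4 : l ^ (16 * e) ≤ ((Q + 1 : ℕ) : ℝ) := by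
        refine (pow_le_pow_right₀ hl1 hK).trans ?_
        push_cast
        exact (hQ ▸ Nat.lt_floor_add_one (l ^ K)).le
      refine (Real.rpow_le_rpow_of_nonpos (by positivity) h4 (by norm_num)).trans (le_of_eq ?_)
      rw [one_div (l ^ e), ← Real.rpow_natCast, ← Real.rpow_mul hl0.le, ← Real.rpow_natCast,
        ← Real.rpow_neg hl0.le]
      push_cast
      ring_nf
    rw [abs_mul, abs_of_nonneg (by positivity), abs_sub_comm, hE]
    calc m * ((N : ℝ) * S) * |pairSeries k N - T| ≤ N * S * (Cs * (1 / l ^ e)) :=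
          mul_le_mul (mul_le_of_le_one_left (by positivity) hm1)
            (hst.trans (mul_le_mul_of_nonneg_left h3 hCs.le)) (abs_nonneg _) (by positivity)
      _ = _ := by ring
  rw [show tripleReps primeTriple k N - pairSeries k N * (m * (N * S)) =
      (tripleReps primeTriple k N - pairWeight k N * T) + (pairWeight k N - m * (N * S)) * T +
        m * (N * S) * (T - pairSeries k N) by ring]
  refine ((abs_add_three _ _ _).trans (add_le_add (add_le_add hc h1) h2)).trans (le_of_eq ?_)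
  ring

/-! ### The triples of primes -/

/-- `N = p₁ + p₂ + q ^ k` with primes. -/
def primeTriples (k N : ℕ) : Finset (ℕ × ℕ × ℕ) :=
  (tripleVars k N).filter fun z =>
    z.1 + (z.2.1 + z.2.2 ^ k) = N ∧ z.1.Prime ∧ z.2.1.Prime ∧ z.2.2.Prime

/-- The part of `Λ a Λ m Λ x` off the triples of primes. -/
def tripleDefect (a m x : ℕ) : ℝ :=
  powerPart a * (Λ m * Λ x) + Λ a * (powerPart m * Λ x) + Λ a * (Λ m * powerPart x)

theorem tripleReps_add (f g : ℕ → ℕ → ℕ → ℝ) (k N : ℕ) :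
    tripleReps (fun a m x => f a m x + g a m x) k N = tripleReps f k N + tripleReps g k N := by
  simp only [tripleReps, sum_add_distrib]

theorem tripleReps_swap (f : ℕ → ℕ → ℕ → ℝ) (k N : ℕ) :
    tripleReps (fun a m x => f m a x) k N = tripleReps f k N := by
  refine sum_nbij' (fun z => (z.2.1, z.1, z.2.2)) (fun z => (z.2.1, z.1, z.2.2))
    (fun z hz => ?_) (fun z hz => ?_) (fun _ _ => rfl) (fun _ _ => rfl) fun z _ => rfl
  all_goals
    simp only [mem_filter, tripleVars, powerVars, mem_product, mem_Ioc] at hz ⊢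
    omega

/-- The first and the last variable determine the middle one. -/
theorem tripleReps_le {f g h : ℕ → ℝ} (hf : ∀ n, 0 ≤ f n) (hh : ∀ n, 0 ≤ h n) {k N : ℕ} {B : ℝ}
    (hB0 : 0 ≤ B) (hB : ∀ m ∈ Ioc 0 N, g m ≤ B) :
    tripleReps (fun a m x => f a * (g m * h x)) k N ≤
      B * ((∑ a ∈ Ioc 0 N, f a) * ∑ x ∈ Ioc 0 (rootFloor k N), h x) := by
  refine (sum_le_sum (g := fun z : ℕ × ℕ × ℕ => B * (f z.1 * h z.2.2)) fun z hz => ?_).trans ?_
  · simp only [mem_filter, tripleVars, powerVars, mem_product] at hz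
    rw [← mul_assoc B, mul_comm B, mul_assoc]
    exact mul_le_mul_of_nonneg_left (mul_le_mul_of_nonneg_right (hB _ hz.1.2.1) (hh _)) (hf _)
  rw [← mul_sum, sum_mul_sum, ← sum_product']
  refine mul_le_mul_of_nonneg_left (le_of_eq_of_le (sum_image (g := fun z : ℕ × ℕ × ℕ =>
    (z.1, z.2.2)) (f := fun y : ℕ × ℕ => f y.1 * h y.2) fun z hz w hw e => ?_).symm
    (sum_le_sum_of_subset_of_nonneg (fun y hy => ?_) fun y _ _ => mul_nonneg (hf _) (hh _))) hB0
  · simp only [mem_coe, mem_filter] at hz hw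
    simp only [Prod.mk.injEq] at e
    refine Prod.ext e.1 (Prod.ext ?_ e.2)
    have h1 := hz.2
    rw [e.1, e.2] at h1
    have := hw.2
    omega
  · rw [mem_image] at hy
    obtain ⟨z, hz, rfl⟩ := hy
    simp only [mem_filter, tripleVars, powerVars, mem_product] at hz
    exact mem_product.2 ⟨hz.1.1, hz.1.2.2⟩

/-- **The prime powers are negligible.** -/
theorem exists_defect_le {k : ℕ} (hk : 2 ≤ k) : ∃ C : ℝ, 0 < C ∧ ∀ N : ℕ, 1 ≤ N →
    1 ≤ Real.log N →
    tripleReps tripleDefect k N ≤ C * ((N : ℝ) * powerScale k N / Real.log N) := by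
  obtain ⟨K₁, hK₁, hpow₁⟩ := exists_log_pow_le 3
  obtain ⟨K₂, hK₂, hpow₂⟩ := exists_log_pow_le_scale hk 6
  refine ⟨24 * K₁ + 12 * √K₂, by positivity, fun N hN hl1 => ?_⟩
  obtain ⟨l, hl⟩ : ∃ l, l = Real.log N := ⟨_, rfl⟩
  rw [← hl] at hl1 ⊢
  have hl0 : 0 < l := by linarith
  have hN1 : (1 : ℝ) ≤ N := by exact_mod_cast hN
  have hN0 : (0 : ℝ) < N := by linarith
  obtain ⟨hS1, -, -, hPS, -⟩ := powerScale_spec hk hN
  obtain ⟨hP1, hPN, -⟩ := rootFloor_spec (show 1 ≤ k by omega) hN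
  obtain ⟨P, hP⟩ : ∃ P, P = rootFloor k N := ⟨_, rfl⟩
  rw [← hP] at hPS hP1 hPN
  obtain ⟨S, hS⟩ : ∃ S, S = powerScale k N := ⟨_, rfl⟩
  rw [← hS] at hS1 hPS ⊢
  have hΛ : ∀ n : ℕ, 0 ≤ Λ n := fun n => vonMangoldt_nonneg
  have hmax : ∀ m ∈ Ioc 0 N, Λ m ≤ l := fun m hm => by
    rw [mem_Ioc] at hm
    exact hl ▸ vonMangoldt_le_log.trans
      (Real.log_le_log (Nat.cast_pos.2 hm.1) (Nat.cast_le.2 hm.2))
  have hA : ∑ m ∈ Ioc 0 N, powerPart m ≤ 2 * √(N : ℝ) * l := by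
    rw [show Ioc 0 N = Icc 1 N by ext; simp; omega, hl]
    exact sum_powerPart_le hN
  have hB : ∑ x ∈ Ioc 0 P, powerPart x ≤ 2 * √S * l := by
    rw [show Ioc 0 P = Icc 1 P by ext; simp; omega, hl]
    refine (sum_powerPart_le hP1).trans (mul_le_mul (mul_le_mul_of_nonneg_left
      (Real.sqrt_le_sqrt hPS) two_pos.le) (Real.log_le_log (Nat.cast_pos.2 hP1) ?_)
      (Real.log_nonneg (by exact_mod_cast hP1)) (by positivity))
    exact_mod_cast (Nat.le_self_pow (by omega) P).trans hPN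
  have hC : ∑ x ∈ Ioc 0 P, Λ x ≤ 6 * S := (sum_vonMangoldt_le P).trans (by linarith)
  have t1 : tripleReps (fun a m x => powerPart a * (Λ m * Λ x)) k N ≤
      l * ((2 * √(N : ℝ) * l) * (6 * S)) :=
    (tripleReps_le (g := fun m => Λ m) powerPart_nonneg hΛ hl0.le hmax).trans
      (mul_le_mul_of_nonneg_left (mul_le_mul hA (hP ▸ hC) (sum_nonneg fun x _ => hΛ x)
        (by positivity)) hl0.le)
  have t3 : tripleReps (fun a m x => Λ a * (Λ m * powerPart x)) k N ≤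
      l * ((6 * N) * (2 * √S * l)) :=
    (tripleReps_le (g := fun m => Λ m) hΛ powerPart_nonneg hl0.le hmax).trans
      (mul_le_mul_of_nonneg_left (mul_le_mul (sum_vonMangoldt_le N) (hP ▸ hB)
        (sum_nonneg fun x _ => powerPart_nonneg x) (by positivity)) hl0.le)
  have t2 : tripleReps (fun a m x => Λ a * (powerPart m * Λ x)) k N =
      tripleReps (fun a m x => powerPart a * (Λ m * Λ x)) k N := by
    rw [← tripleReps_swap (fun a m x => powerPart a * (Λ m * Λ x))]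
    refine sum_congr rfl fun z _ => ?_
    ring
  have h1 : l ^ 3 ≤ K₁ * √(N : ℝ) := hl ▸ hpow₁ N hN1
  have h2 : l ^ 3 ≤ √K₂ * √S := by
    have := hpow₂ N hN
    rw [← hl, ← hS] at this
    rw [← Real.sqrt_mul hK₂.le,
      show l ^ 3 = √((l ^ 3) ^ 2) from (Real.sqrt_sq (by positivity)).symm]
    exact Real.sqrt_le_sqrt (le_of_eq_of_le (by ring) this)
  refine (show tripleReps tripleDefect k N ≤ _ from
    le_of_eq_of_le ((tripleReps_add _ _ k N).trans (congrArg (· + _) (tripleReps_add _ _ k N)))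
      (add_le_add (add_le_add t1 (t2.trans_le t1)) t3)).trans ?_
  rw [mul_div_assoc', le_div_iff₀ hl0]
  calc (l * ((2 * √(N : ℝ) * l) * (6 * S)) + l * ((2 * √(N : ℝ) * l) * (6 * S)) +
        l * ((6 * N) * (2 * √S * l))) * l
      = 24 * (S * (√(N : ℝ) * l ^ 3)) + 12 * ((N : ℝ) * (√S * l ^ 3)) := by ring
    _ ≤ 24 * (S * (√(N : ℝ) * (K₁ * √(N : ℝ)))) + 12 * ((N : ℝ) * (√S * (√K₂ * √S))) := by
        gcongr
    _ = 24 * (K₁ * S * (√(N : ℝ) * √(N : ℝ))) + 12 * (√K₂ * N * (√S * √S)) := by ring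
    _ = _ := by rw [Real.mul_self_sqrt hN0.le, Real.mul_self_sqrt (by linarith)]; ring

/-- The weighted count against the triples of primes. -/
theorem tripleReps_primeTriple_le {k N : ℕ} (hk : 1 ≤ k) (hN : 1 ≤ N) :
    tripleReps primeTriple k N ≤
      (primeTriples k N).card * Real.log N ^ 3 + tripleReps tripleDefect k N := by
  have hl0 : 0 ≤ Real.log N := Real.log_natCast_nonneg N
  obtain ⟨hP1, hPN, -⟩ := rootFloor_spec hk hN
  have hmax : ∀ m : ℕ, 0 < m → m ≤ N → Λ m ≤ Real.log N := fun m h0 hm =>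
    vonMangoldt_le_log.trans (Real.log_le_log (Nat.cast_pos.2 h0) (Nat.cast_le.2 hm))
  rw [primeTriples, ← filter_filter, ← nsmul_eq_mul, ← sum_const, sum_filter, tripleReps,
    tripleReps, ← sum_add_distrib]
  refine sum_le_sum fun z hz => ?_
  simp only [mem_filter, tripleVars, powerVars, mem_product, mem_Ioc] at hz
  have e1 := mul_nonneg (powerPart_nonneg z.1)
    (mul_nonneg (vonMangoldt_nonneg (n := z.2.1)) (vonMangoldt_nonneg (n := z.2.2)))
  have e2 := mul_nonneg (vonMangoldt_nonneg (n := z.1))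
    (mul_nonneg (powerPart_nonneg z.2.1) (vonMangoldt_nonneg (n := z.2.2)))
  have e3 := mul_nonneg (vonMangoldt_nonneg (n := z.1))
    (mul_nonneg (vonMangoldt_nonneg (n := z.2.1)) (powerPart_nonneg z.2.2))
  rw [primeTriple, tripleDefect]
  split_ifs with h
  · have hx : z.2.2 ≤ N := ((Nat.le_self_pow (by omega) _).trans
      ((Nat.pow_le_pow_left hz.1.2.2.2 k).trans hPN))
    have : Λ z.1 * (Λ z.2.1 * Λ z.2.2) ≤ Real.log N ^ 3 := by
      rw [pow_succ' _ 2, sq]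
      exact mul_le_mul (hmax _ hz.1.1.1 hz.1.1.2) (mul_le_mul (hmax _ hz.1.2.1.1 hz.1.2.1.2)
        (hmax _ hz.1.2.2.1 hx) vonMangoldt_nonneg hl0)
        (mul_nonneg vonMangoldt_nonneg vonMangoldt_nonneg) hl0
    linarith
  · rw [not_and_or, not_and_or] at h
    rcases h with h | h | h
    · rw [show powerPart z.1 = Λ z.1 by rw [powerPart, if_neg h]] at e1 ⊢
      linarith
    · rw [show powerPart z.2.1 = Λ z.2.1 by rw [powerPart, if_neg h]] at e2 ⊢
      linarith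
    · rw [show powerPart z.2.2 = Λ z.2.2 by rw [powerPart, if_neg h]] at e3 ⊢
      linarith

/-- **The lower bound for the number of representations.** -/
theorem eventually_card_primeTriples_ge {k : ℕ} (hk : 2 ≤ k) :
    ∀ᶠ N : ℕ in atTop, Odd N →
      1 / 8 * (N : ℝ) ^ (1 + 1 / (k : ℝ)) / Real.log N ^ 3 ≤ ((primeTriples k N).card : ℝ) := by
  obtain ⟨C, N₀, hC, h⟩ := exists_asymptotic hk 1
  obtain ⟨C', hC', hdef⟩ := exists_defect_le hk
  refine eventually_atTop.2 ⟨max N₀ ⌈Real.exp (8 * (C + C') + 1)⌉₊, fun N hN hodd => ?_⟩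
  simp only [max_le_iff] at hN
  have hN' : Real.exp (8 * (C + C') + 1) ≤ N := (Nat.le_ceil _).trans (Nat.cast_le.2 hN.2)
  have hN0 : (0 : ℝ) < N := lt_of_lt_of_le (Real.exp_pos _) hN'
  have hl : 8 * (C + C') + 1 ≤ Real.log N := (Real.le_log_iff_exp_le hN0).2 hN'
  have hN1 : 1 ≤ N := Nat.cast_pos.1 hN0
  have hl1 : 1 ≤ Real.log N := by linarith
  have hasym := (abs_le.1 (h N hN.1)).1
  have hd := hdef N hN1 hl1
  have hup := tripleReps_primeTriple_le (show 1 ≤ k by omega) hN1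
  rw [pow_one] at hasym
  rw [show (N : ℝ) * powerScale k N = (N : ℝ) ^ (1 + 1 / (k : ℝ)) by
    rw [Real.rpow_add hN0, Real.rpow_one, powerScale]] at hd
  obtain ⟨V, hV⟩ : ∃ V, V = (N : ℝ) ^ (1 + 1 / (k : ℝ)) := ⟨_, rfl⟩
  rw [← hV] at hasym hd ⊢
  have hV0 : 0 ≤ V := hV ▸ Real.rpow_nonneg hN0.le _
  have hm : 1 / 2 ≤ (k : ℝ) / (k + 1) := by
    rw [div_le_div_iff₀ two_pos (by positivity)]
    have : (1 : ℝ) ≤ k := by exact_mod_cast (show 1 ≤ k by omega)
    linarith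
  have hmain := mul_le_mul (half_le_pairSeries (show 1 ≤ k by omega) hodd)
    (mul_le_mul_of_nonneg_right hm hV0) (by positivity)
    (le_trans (by norm_num) (half_le_pairSeries (show 1 ≤ k by omega) hodd))
  have herr : (C + C') * (V / Real.log N) ≤ V / 8 := by
    rw [mul_div_assoc', div_le_iff₀ (by linarith)]
    nlinarith
  rw [div_le_iff₀ (by positivity)]
  linarith

/-- `N = p₁ + p₂ + q ^ k` with primes. -/
theorem eventually_exists_triple {k : ℕ} (hk : 2 ≤ k) : ∀ᶠ N : ℕ in atTop, Odd N →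
    ∃ p₁ p₂ q : ℕ, p₁.Prime ∧ p₂.Prime ∧ q.Prime ∧ p₁ + p₂ + q ^ k = N := by
  filter_upwards [eventually_card_primeTriples_ge hk, eventually_ge_atTop 2] with N hN h2 hodd
  have hl : 0 < Real.log N := Real.log_pos (by exact_mod_cast h2)
  have hpos : 0 < ((primeTriples k N).card : ℝ) := lt_of_lt_of_le (by positivity) (hN hodd)
  obtain ⟨z, hz⟩ := card_pos.1 (Nat.cast_pos.1 hpos)
  rw [primeTriples, mem_filter] at hz
  exact ⟨z.1, z.2.1, z.2.2, hz.2.2.1, hz.2.2.2.1, hz.2.2.2.2, by omega⟩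

end FA.TwoPrimesPrimePower
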