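import Fermat.Agent.PrimePlusPrimePower.Series
import Fermat.Agent.ThreePrimes.Singular

/-!
# The singular series of two primes and the `k`-th power of a prime

Its term at `q` is `(μ q / φ q) ^ 2` times the term of one power of a prime. It converges
absolutely, like `q ^ (-19/16)`, and its factor at `p` is at least `1 - 1 / (p - 1) ^ 2` for odd
`N`, so the series is at least `1/2`.
-/

set_option autoImplicit false

noncomputable section

namespace FA.TwoPrimesPrimePower

open Finset FA.ThreePrimes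
open FA.PrimePlusPrimePower (jointCoeff jointTerm jointTerm_eq_arcs jointTerm_one jointTerm_mul
  jointTerm_primePow_eq_zero localFactorJoint freeUnits one_add_jointTerm_prime
  norm_jointCoeff_le_one)

/-- The coefficient of a centre. -/
def pairCoeff (k : ℕ) (z : Σ _ : ℕ, ℕ) : ℂ :=
  ((moebiusR z.1 / z.1.totient : ℝ) : ℂ) * jointCoeff k z

/-- The singular series term. -/
def pairTerm (k N q : ℕ) : ℂ := ((moebiusR q / q.totient : ℝ) : ℂ) * jointTerm k N q

/-- The singular series. -/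
def pairSeries (k N : ℕ) : ℝ := (∑' q, pairTerm k N q).re

theorem norm_pairCoeff_le_one (k : ℕ) (z : Σ _ : ℕ, ℕ) : ‖pairCoeff k z‖ ≤ 1 := by
  rw [pairCoeff, norm_mul]
  exact mul_le_one₀ (PrimePlusSquare.norm_moebius_ratio_le _) (norm_nonneg _)
    (norm_jointCoeff_le_one k z)

theorem pairTerm_eq_arcs (k N : ℕ) (A : Finset ℕ) :
    ∑ q ∈ A, pairTerm k N q =
      ∑ z ∈ A.sigma unitResidues, pairCoeff k z * eAdd (-((N : ℝ) * centre z)) := by
  rw [sum_sigma]
  refine sum_congr rfl fun q _ => ?_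
  have h := jointTerm_eq_arcs k N {q}
  rw [sum_singleton, sum_sigma, sum_singleton] at h
  simp only [pairTerm, pairCoeff, h, mul_sum, mul_assoc]

theorem pairTerm_zero (k N : ℕ) : pairTerm k N 0 = 0 := by
  simp [pairTerm]

theorem pairTerm_one (k N : ℕ) : pairTerm k N 1 = 1 := by
  simp [pairTerm, jointTerm_one, moebiusR_isMultiplicative.1]

theorem pairTerm_mul (k N : ℕ) {a b : ℕ} (h : a.Coprime b) :
    pairTerm k N (a * b) = pairTerm k N a * pairTerm k N b := by
  rw [pairTerm, pairTerm, pairTerm, moebiusR_isMultiplicative.2 h, Nat.totient_mul h,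
    jointTerm_mul k N h]
  push_cast
  rw [mul_div_mul_comm]
  ring

/-- **The term decays like `q ^ (-19/16)`.** -/
theorem exists_norm_pairTerm_le {k : ℕ} (hk : 1 ≤ k) : ∃ C : ℝ, 0 < C ∧ ∀ N q : ℕ,
    ‖pairTerm k N q‖ ≤ C * (q : ℝ) ^ (-(19 / 16) : ℝ) := by
  obtain ⟨C₁, hC₁, hcoef⟩ := PrimePlusPrimePower.exists_sum_jointCoeff_sq_le hk
  obtain ⟨C₂, hC₂, hφ⟩ := PrimePlusPower.exists_inv_totient_le_rpow (ε := 1 / 8) (by norm_num)
  refine ⟨√(C₁ * C₂), by positivity, fun N q => ?_⟩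
  rcases Nat.eq_zero_or_pos q with rfl | hq
  · rw [pairTerm_zero, norm_zero]
    positivity
  have hq0 : (0 : ℝ) < q := Nat.cast_pos.2 hq
  have hφ0 : (0 : ℝ) < q.totient := Nat.cast_pos.2 (Nat.totient_pos.2 hq)
  obtain ⟨T, hT⟩ : ∃ T, T = ∑ r ∈ unitResidues q, ‖jointCoeff k ⟨q, r⟩‖ := ⟨_, rfl⟩
  have hT0 : 0 ≤ T := hT ▸ sum_nonneg fun r _ => norm_nonneg _
  have hj : ‖jointTerm k N q‖ ≤ T := by
    have h := jointTerm_eq_arcs k N {q}
    rw [sum_singleton, sum_sigma, sum_singleton] at h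
    rw [h, hT]
    refine (norm_sum_le _ _).trans (le_of_eq (sum_congr rfl fun r _ => ?_))
    rw [norm_mul, norm_eAdd, mul_one]
  have hTq : T ^ 2 ≤ (q.totient : ℝ) * (C₁ * (q : ℝ) ^ (-(3 / 2) : ℝ)) := by
    rw [hT]
    refine sq_sum_le_card_mul_sum_sq.trans ?_
    rw [card_unitResidues]
    exact mul_le_mul_of_nonneg_left (hcoef q hq) hφ0.le
  rw [pairTerm, norm_mul]
  refine (mul_le_mul (b := 1 / (q.totient : ℝ)) ?_ hj (norm_nonneg _) (by positivity)).trans ?_
  · rw [Complex.norm_real, Real.norm_eq_abs, abs_div, Nat.abs_cast]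
    exact div_le_div_of_nonneg_right (abs_moebiusR_le q) hφ0.le
  refine le_of_pow_le_pow_left₀ two_ne_zero (by positivity) ?_
  rw [mul_pow, mul_pow, Real.sq_sqrt (by positivity), ← Real.rpow_natCast ((q : ℝ) ^ _) 2,
    ← Real.rpow_mul hq0.le]
  calc (1 / (q.totient : ℝ)) ^ 2 * T ^ 2
      ≤ (1 / (q.totient : ℝ)) ^ 2 * ((q.totient : ℝ) * (C₁ * (q : ℝ) ^ (-(3 / 2) : ℝ))) :=
        mul_le_mul_of_nonneg_left hTq (sq_nonneg _)
    _ = 1 / (q.totient : ℝ) * (C₁ * (q : ℝ) ^ (-(3 / 2) : ℝ)) := by field_simp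
    _ ≤ C₂ * (q : ℝ) ^ (1 / 8 - 1 : ℝ) * (C₁ * (q : ℝ) ^ (-(3 / 2) : ℝ)) :=
        mul_le_mul_of_nonneg_right (hφ q hq) (by positivity)
    _ = _ := by
        rw [show (-(19 / 16) : ℝ) * ((2 : ℕ) : ℝ) = (1 / 8 - 1) + -(3 / 2) by norm_num,
          Real.rpow_add hq0]
        ring

theorem summable_norm_pairTerm {k : ℕ} (hk : 1 ≤ k) (N : ℕ) :
    Summable fun q => ‖pairTerm k N q‖ := by
  obtain ⟨C, -, hC⟩ := exists_norm_pairTerm_le hk
  exact Summable.of_nonneg_of_le (fun _ => norm_nonneg _) (hC N)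
    ((Real.summable_nat_rpow.2 (by norm_num)).mul_left C)

/-- **The truncation error.** -/
theorem exists_pairSeries_tail {k : ℕ} (hk : 1 ≤ k) : ∃ C : ℝ, 0 < C ∧ ∀ N Q : ℕ,
    |pairSeries k N - (∑ q ∈ Icc 1 Q, pairTerm k N q).re| ≤
      C * ((Q + 1 : ℕ) : ℝ) ^ (-(1 / 16) : ℝ) ∧ ‖∑ q ∈ Icc 1 Q, pairTerm k N q‖ ≤ C := by
  obtain ⟨C, hC, hterm⟩ := exists_norm_pairTerm_le hk
  have hs : Summable fun q : ℕ => (q : ℝ) ^ (-(9 / 8) : ℝ) :=
    Real.summable_nat_rpow.2 (by norm_num)
  obtain ⟨Z, hZ⟩ : ∃ Z : ℝ, Z = ∑' q : ℕ, (q : ℝ) ^ (-(9 / 8) : ℝ) := ⟨_, rfl⟩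
  have hZ0 : 0 ≤ Z := hZ ▸ tsum_nonneg fun q => by positivity
  refine ⟨C * (Z + 1), by positivity, fun N Q => ⟨?_, ?_⟩⟩
  · have h0 : ∑ q ∈ Icc 1 Q, pairTerm k N q = ∑ q ∈ range (Q + 1), pairTerm k N q := by
      refine sum_subset (fun q hq => ?_) fun q hq hq' => ?_
      · rw [mem_Icc] at hq
        rw [mem_range]
        omega
      · rw [mem_range] at hq
        rw [mem_Icc] at hq'
        obtain rfl : q = 0 := by omega
        exact pairTerm_zero k N
    have hn := summable_norm_pairTerm hk N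
    rw [pairSeries, h0, ← Complex.sub_re, ← hn.of_norm.sum_add_tsum_nat_add (Q + 1),
      add_sub_cancel_left]
    refine (Complex.abs_re_le_norm _).trans ((norm_tsum_le_tsum_norm
      ((summable_nat_add_iff (f := fun q => ‖pairTerm k N q‖) (Q + 1)).2 hn)).trans
      ((Summable.tsum_le_tsum (g := fun i : ℕ => C * ((Q + 1 : ℕ) : ℝ) ^ (-(1 / 16) : ℝ) *
        ((i + (Q + 1) : ℕ) : ℝ) ^ (-(9 / 8) : ℝ)) (fun i => ?_)
        ((summable_nat_add_iff (f := fun q => ‖pairTerm k N q‖) (Q + 1)).2 hn)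
        (((summable_nat_add_iff (Q + 1)).2 hs).mul_left _)).trans ?_))
    · refine (hterm N _).trans ?_
      have hi : (0 : ℝ) < ((i + (Q + 1) : ℕ) : ℝ) := Nat.cast_pos.2 (by omega)
      rw [show (-(19 / 16) : ℝ) = -(1 / 16) + -(9 / 8) by norm_num, Real.rpow_add hi, mul_assoc]
      refine mul_le_mul_of_nonneg_left (mul_le_mul_of_nonneg_right ?_ (by positivity)) hC.le
      exact Real.rpow_le_rpow_of_nonpos (Nat.cast_pos.2 (by omega)) (Nat.cast_le.2 (by omega))
        (by norm_num)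
    · rw [tsum_mul_left, mul_right_comm C (Z + 1)]
      refine mul_le_mul_of_nonneg_left ?_ (by positivity)
      have h1 := hs.sum_add_tsum_nat_add (Q + 1)
      have h2 : 0 ≤ ∑ i ∈ range (Q + 1), (i : ℝ) ^ (-(9 / 8) : ℝ) :=
        sum_nonneg fun q _ => by positivity
      rw [← hZ] at h1
      linarith
  · refine (norm_sum_le _ _).trans ((sum_le_sum fun q hq => (hterm N q).trans
      (mul_le_mul_of_nonneg_left (Real.rpow_le_rpow_of_exponent_le ?_
        (show (-(19 / 16) : ℝ) ≤ -(9 / 8) by norm_num)) hC.le)).trans ?_)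
    · exact_mod_cast (mem_Icc.1 hq).1
    · rw [← mul_sum]
      refine mul_le_mul_of_nonneg_left ((hs.sum_le_tsum _ fun q _ => by positivity).trans ?_) hC.le
      linarith

/-! ### The local factors -/

theorem tsum_pairTerm_primePow (k N : ℕ) {p : ℕ} (hp : p.Prime) :
    ∑' e, pairTerm k N (p ^ e) =
      ((1 - (localFactorJoint k N p - 1) / ((p : ℝ) - 1) : ℝ) : ℂ) := by
  rw [tsum_eq_sum (s := range 2) fun e he => ?_]
  · have hj : jointTerm k N p = ((localFactorJoint k N p : ℝ) : ℂ) - 1 :=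
      eq_sub_of_add_eq' (one_add_jointTerm_prime k N hp)
    have hμ : moebiusR p = -1 := by
      simpa using PrimePlusSquare.moebiusR_primePow hp one_ne_zero
    simp only [sum_range_succ, sum_range_zero, zero_add, pow_zero, pow_one, pairTerm_one]
    rw [pairTerm, hj, hμ, Nat.totient_prime hp, Nat.cast_sub hp.one_le, Nat.cast_one]
    push_cast
    ring
  · rw [mem_range] at he
    rw [pairTerm, jointTerm_primePow_eq_zero k N hp (by omega), mul_zero]

theorem telescope_le_pairFactor (k : ℕ) {N : ℕ} (hN : Odd N) {p : ℕ} (hp : p.Prime) :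
    telescope p ≤ 1 - (localFactorJoint k N p - 1) / ((p : ℝ) - 1) := by
  rcases lt_or_ge p 3 with h | h
  · obtain rfl : p = 2 := by have := hp.two_le; omega
    have he : freeUnits k N 2 = ∅ := by
      refine filter_eq_empty_iff.2 fun x hx hd => hd ?_
      rw [unitResidues, mem_filter, mem_range] at hx
      obtain rfl : x = 1 := by
        rcases Nat.le_one_iff_eq_zero_or_eq_one.1 (show x ≤ 1 by omega) with rfl | rfl
        · norm_num at hx
        · rfl
      obtain ⟨i, rfl⟩ := hN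
      rw [one_pow]
      push_cast
      exact ⟨-i, by ring⟩
    norm_num [telescope, localFactorJoint, he]
  · have h3 : (3 : ℝ) ≤ p := by exact_mod_cast h
    have hc : ((freeUnits k N p).card : ℝ) ≤ (p : ℝ) - 1 := by
      have h1 : (freeUnits k N p).card ≤ p - 1 :=
        (card_filter_le _ _).trans_eq (by rw [card_unitResidues, Nat.totient_prime hp])
      have h2 : ((freeUnits k N p).card : ℝ) ≤ ((p - 1 : ℕ) : ℝ) := Nat.cast_le.2 h1
      rwa [Nat.cast_sub hp.one_le, Nat.cast_one] at h2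
    have hp1 : (0 : ℝ) < p - 1 := by linarith
    have hl : localFactorJoint k N p ≤ (p : ℝ) / ((p : ℝ) - 1) := by
      rw [localFactorJoint, div_le_div_iff₀ (by positivity) hp1, sq, ← mul_assoc]
      exact mul_le_mul_of_nonneg_right (mul_le_mul_of_nonneg_left hc (Nat.cast_nonneg p)) hp1.le
    rw [telescope, if_neg (by omega)]
    have e : ((p : ℝ) / ((p : ℝ) - 1) - 1) / ((p : ℝ) - 1) = 1 / ((p : ℝ) - 1) ^ 2 := by
      field_simp
      ring
    have := div_le_div_of_nonneg_right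
      (show localFactorJoint k N p - 1 ≤ (p : ℝ) / ((p : ℝ) - 1) - 1 by linarith) hp1.le
    linarith

/-- **The singular series is at least `1/2` for odd `N`.** -/
theorem half_le_pairSeries {k : ℕ} (hk : 1 ≤ k) {N : ℕ} (hN : Odd N) :
    1 / 2 ≤ pairSeries k N := by
  refine ge_of_tendsto ((Complex.continuous_re.tendsto _).comp
    (EulerProduct.eulerProduct (f := pairTerm k N) (pairTerm_one k N) (pairTerm_mul k N)
      (summable_norm_pairTerm hk N) (pairTerm_zero k N)))
    (Filter.Eventually.of_forall fun n => ?_)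
  rw [Function.comp_apply, prod_congr rfl fun p hp =>
      tsum_pairTerm_primePow k N (Nat.prime_of_mem_primesBelow hp),
    ← Complex.ofReal_prod, Complex.ofReal_re]
  refine le_trans (half_le_prod_telescope n) ?_
  refine le_trans (prod_le_prod_of_subset_of_le_one (s := n.primesBelow)
    (fun p hp => (mem_filter.1 hp).1)
    (fun m _ => (telescope_bounds m).1.le) fun m _ _ => (telescope_bounds m).2) ?_
  exact prod_le_prod (fun m _ => (telescope_bounds m).1.le) fun p hp =>
    telescope_le_pairFactor k hN (Nat.prime_of_mem_primesBelow hp)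

end FA.TwoPrimesPrimePower
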